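/-
Fermat/Agent/AV/Cube82/Algebra.lean  (helper82, programme AV = S26/S27, bricks SQ + CUBE)

**Pure algebra of the cube defect.**  For a function `e : G → P` between commutative groups
(`G` = points of an abelian variety with values in some `T`, `P = Pic T`, `e x = x^* ℓ`) put

  `theta e x y z = e(xyz) e(xy)⁻¹ e(xz)⁻¹ e(yz)⁻¹ e(x) e(y) e(z) e(1)⁻¹`.

* `theta` is symmetric, trivial when one argument is `1`, and satisfies the cocycle identity
  `theta (xy) z w · theta x y w = theta x (yz) w · theta y z w`;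
* hence `{x | ∀ y z, theta e x y z = 1}` is a subgroup (`cubeSubgroup`);
* if `theta e x (x^n) x⁻¹ = 1` for all `n ≥ 1`, `e x⁻¹ = e x` and `e 1 = 1`, then
  `e (x ^ n) = e x ^ (n ^ 2)` (`map_pow_eq_pow_sq`).

Mathlib only.
-/
import Mathlib

set_option autoImplicit false

namespace Fermat.Agent.AV.Cube82

/-! ### Four identities in a commutative group (proved additively with `abel`) -/

section Identities

variable {P : Type*} [CommGroup P]

theorem cg_id1 (a b c d : P) : a * b⁻¹ * c⁻¹ * a⁻¹ * d * b * c * d⁻¹ = 1 := by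
  have h : ∀ a b c d : Additive P, a + -b + -c + -a + d + b + c + -d = 0 := by
    intros; abel
  exact h (Additive.ofMul a) (Additive.ofMul b) (Additive.ofMul c) (Additive.ofMul d)

theorem cg_id2 (a b c d p q r s : P) :
    a * b⁻¹ * c⁻¹ * d⁻¹ * p * q * r * s⁻¹ = a * b⁻¹ * d⁻¹ * c⁻¹ * q * p * r * s⁻¹ := by
  have h : ∀ a b c d p q r s : Additive P,
      a + -b + -c + -d + p + q + r + -s = a + -b + -d + -c + q + p + r + -s := by
    intros; abel
  exact h (Additive.ofMul a) (Additive.ofMul b) (Additive.ofMul c) (Additive.ofMul d)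
    (Additive.ofMul p) (Additive.ofMul q) (Additive.ofMul r) (Additive.ofMul s)

theorem cg_id3 (a b c d p q r s : P) :
    a * b⁻¹ * c⁻¹ * d⁻¹ * p * q * r * s⁻¹ = a * c⁻¹ * b⁻¹ * d⁻¹ * p * r * q * s⁻¹ := by
  have h : ∀ a b c d p q r s : Additive P,
      a + -b + -c + -d + p + q + r + -s = a + -c + -b + -d + p + r + q + -s := by
    intros; abel
  exact h (Additive.ofMul a) (Additive.ofMul b) (Additive.ofMul c) (Additive.ofMul d)
    (Additive.ofMul p) (Additive.ofMul q) (Additive.ofMul r) (Additive.ofMul s)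

theorem cg_id4 (a b c d f g h i j k l m n o : P) :
    (a * b⁻¹ * c⁻¹ * d⁻¹ * f * g * h * i⁻¹) * (c * f⁻¹ * j⁻¹ * k⁻¹ * l * m * h * i⁻¹) =
      (a * b⁻¹ * j⁻¹ * n⁻¹ * l * o * h * i⁻¹) * (n * o⁻¹ * k⁻¹ * d⁻¹ * m * g * h * i⁻¹) := by
  have key : ∀ a b c d f g h i j k l m n o : Additive P,
      (a + -b + -c + -d + f + g + h + -i) + (c + -f + -j + -k + l + m + h + -i) =
      (a + -b + -j + -n + l + o + h + -i) + (n + -o + -k + -d + m + g + h + -i) := by
    intros; abel
  exact key (Additive.ofMul a) (Additive.ofMul b) (Additive.ofMul c) (Additive.ofMul d)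
    (Additive.ofMul f) (Additive.ofMul g) (Additive.ofMul h) (Additive.ofMul i)
    (Additive.ofMul j) (Additive.ofMul k) (Additive.ofMul l) (Additive.ofMul m)
    (Additive.ofMul n) (Additive.ofMul o)

theorem cg_id5 (a b c q : P) :
    (a * b⁻¹ * c⁻¹ * q * a * q) * (b * c) = (a * a) * (q * q) := by
  have key : ∀ a b c q : Additive P,
      (a + -b + -c + q + a + q) + (b + c) = (a + a) + (q + q) := by
    intros; abel
  exact key (Additive.ofMul a) (Additive.ofMul b) (Additive.ofMul c) (Additive.ofMul q)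

theorem cg_id6 (a b c l : P) (h : a * b⁻¹ * c⁻¹ * l = 1) : a * l = b * c := by
  have key : ∀ a b c l : Additive P, a + l = (a + -b + -c + l) + (b + c) := by
    intros; abel
  have h2 : a * l = (a * b⁻¹ * c⁻¹ * l) * (b * c) :=
    key (Additive.ofMul a) (Additive.ofMul b) (Additive.ofMul c) (Additive.ofMul l)
  rw [h2, h, one_mul]

end Identities

variable {G P : Type*} [CommGroup G] [CommGroup P]

/-- The cube defect of a function `e : G → P` between commutative groups. -/
def theta (e : G → P) (x y z : G) : P :=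
  e (x * y * z) * (e (x * y))⁻¹ * (e (x * z))⁻¹ * (e (y * z))⁻¹ * e x * e y * e z * (e 1)⁻¹

variable (e : G → P)

theorem theta_one_left (y z : G) : theta e 1 y z = 1 := by
  simp only [theta, one_mul]
  exact cg_id1 _ _ _ _

theorem theta_comm12 (x y z : G) : theta e x y z = theta e y x z := by
  simp only [theta, mul_comm y x]
  exact cg_id2 _ _ _ _ _ _ _ _

theorem theta_comm23 (x y z : G) : theta e x y z = theta e x z y := by
  simp only [theta]
  rw [mul_right_comm x z y, mul_comm z y]
  exact cg_id3 _ _ _ _ _ _ _ _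

theorem theta_comm13 (x y z : G) : theta e x y z = theta e z y x := by
  rw [theta_comm12, theta_comm23, theta_comm12]

theorem theta_one_mid (x z : G) : theta e x 1 z = 1 := by
  rw [theta_comm12, theta_one_left]

theorem theta_one_right (x y : G) : theta e x y 1 = 1 := by
  rw [theta_comm13, theta_one_left]

/-- The **cocycle identity** for the cube defect. -/
theorem theta_cocycle (x y z w : G) :
    theta e (x * y) z w * theta e x y w = theta e x (y * z) w * theta e y z w := by
  simp only [theta]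
  rw [mul_assoc x y z]
  exact cg_id4 (e (x * (y * z) * w)) (e (x * (y * z))) (e (x * y * w)) (e (z * w)) (e (x * y))
    (e z) (e w) (e 1) (e (x * w)) (e (y * w)) (e x) (e y) (e (y * z * w)) (e (y * z))

/-- The set of `x` such that the cube defect vanishes identically in the other two variables is a
subgroup. -/
def cubeSubgroup : Subgroup G where
  carrier := {x | ∀ y z, theta e x y z = 1}
  one_mem' := fun y z => theta_one_left e y z
  mul_mem' := by
    intro a b ha hb y z
    have h := theta_cocycle e a b y z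
    rw [ha (b * y) z, hb y z, ha b z] at h
    simpa using h
  inv_mem' := by
    intro a ha y z
    have h := theta_cocycle e a a⁻¹ y z
    rw [mul_inv_cancel, theta_one_left, ha a⁻¹ z, ha (a⁻¹ * y) z] at h
    simpa using h.symm

theorem mem_cubeSubgroup {x : G} : x ∈ cubeSubgroup e ↔ ∀ y z, theta e x y z = 1 := Iff.rfl

/-- Compatibility with a homomorphism on the target. -/
theorem theta_comp_hom {P' : Type*} [CommGroup P'] (ρ : P →* P') (x y z : G) :
    theta (fun g => ρ (e g)) x y z = ρ (theta e x y z) := by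
  simp only [theta, map_mul, map_inv]

/-- Compatibility with a homomorphism on the source. -/
theorem theta_hom_comp {G' : Type*} [CommGroup G'] (ψ : G' →* G) (x y z : G') :
    theta (fun g => e (ψ g)) x y z = theta e (ψ x) (ψ y) (ψ z) := by
  simp only [theta, map_mul, map_one]

/-- The cube defect of `e ^ δ`. -/
theorem theta_pow (δ : ℕ) (x y z : G) :
    theta (fun g => e g ^ δ) x y z = theta e x y z ^ δ := by
  simp only [theta, mul_pow, inv_pow]

/-- **Quadraticity from the cube.**  If the cube defect vanishes on the triples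
`(x, x ^ n, x⁻¹)`, `n ≥ 1`, and `e` is symmetric at `x` and normalised, then
`e (x ^ n) = e x ^ (n ^ 2)`. -/
theorem map_pow_eq_pow_sq (x : G) (h1 : e 1 = 1) (hsym : e x⁻¹ = e x)
    (hθ : ∀ n : ℕ, 1 ≤ n → theta e x (x ^ n) x⁻¹ = 1) (n : ℕ) :
    e (x ^ n) = e x ^ (n ^ 2) := by
  -- the recursion
  have hrec : ∀ n : ℕ, e (x ^ (n + 2)) * e (x ^ n) = e (x ^ (n + 1)) ^ 2 * e x ^ 2 := by
    intro n
    have h := hθ (n + 1) (by omega)
    simp only [theta] at h
    have a1 : x * x ^ (n + 1) * x⁻¹ = x ^ (n + 1) := by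
      rw [mul_comm x, mul_assoc, mul_inv_cancel, mul_one]
    have a2 : x * x ^ (n + 1) = x ^ (n + 2) := by rw [← pow_succ']
    have a3 : x * x⁻¹ = 1 := mul_inv_cancel x
    have a4 : x ^ (n + 1) * x⁻¹ = x ^ n := by
      rw [pow_succ, mul_assoc, mul_inv_cancel, mul_one]
    rw [a1, a2, a3, a4, h1, hsym] at h
    simp only [inv_one, mul_one] at h
    -- h : e(x^(n+1)) * e(x^(n+2))⁻¹ * e(x^n)⁻¹ * e x * e(x^(n+1)) * e x = 1
    have h5 := cg_id5 (e (x ^ (n + 1))) (e (x ^ (n + 2))) (e (x ^ n)) (e x)
    rw [h, one_mul] at h5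
    rw [h5, pow_two, pow_two]
  -- two-step induction
  have key : ∀ n : ℕ, e (x ^ n) = e x ^ (n ^ 2) ∧ e (x ^ (n + 1)) = e x ^ ((n + 1) ^ 2) := by
    intro n
    induction n with
    | zero => simp [h1]
    | succ n ih =>
      refine ⟨ih.2, ?_⟩
      have h := hrec n
      rw [ih.1, ih.2, ← pow_mul, ← pow_add] at h
      have h2 : e x ^ ((n + 1 + 1) ^ 2) * e x ^ n ^ 2 = e x ^ ((n + 1) ^ 2 * 2 + 2) := by
        rw [← pow_add]
        congr 1
        ring
      exact mul_right_cancel (h.trans h2.symm)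
  exact (key n).1

end Fermat.Agent.AV.Cube82
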