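/-
Fermat/Agent/AV/Cube82/PicCalc.lean  (helper82, programme AV = S26/S27, bricks SQ + CUBE)

**Abstract Picard calculus and the functorial cube defect.**

`PicCalc` is the interface that brick PIC-core has to instantiate: a contravariant functor
`Pic : Scheme → CommGroup` together with `cls` (class of an invertible module), compatible with
pullback, surjective, and detecting triviality.

For a group law `G` on `f : A ⟶ Spec K`, a class `ℓ : Pic A` and `T`-valued points `x y z` of `A`
we define the cube defect `Th t x y z ∈ Pic T` (built from `x^*ℓ` etc.), prove its naturality in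
`T`, and introduce the functorial "theorem of the square" predicate `InS t x`
(`Th (ψ^*x) y z = 1` for all `ψ : T' ⟶ T` and all `T'`-points `y z`), which is stable under the
group law and under base change.
-/
import Mathlib
import Fermat.Agent.AV.Cube82.Algebra
import Fermat.Prelude.Def_AlgebraicGeometry_RelativePicardFunctor
import Fermat.Prelude.Def_GoodReductionJacobian_RelativeGroupLawKernel

set_option autoImplicit false
set_option linter.style.haveILetI false

noncomputable section

universe v u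

open CategoryTheory CategoryTheory.Limits AlgebraicGeometry NeronModelInfra GoodReductionJacobian

namespace Fermat.Agent.AV.Cube82

/-- The abstract Picard calculus (to be instantiated by brick PIC-core). -/
structure PicCalc where
  /-- the Picard group of a scheme -/
  Pic : Scheme.{u} → Type v
  /-- it is a commutative group -/
  [grp : ∀ X : Scheme.{u}, CommGroup (Pic X)]
  /-- pullback of classes -/
  map : ∀ {X Y : Scheme.{u}} (_ : X ⟶ Y), Pic Y →* Pic X
  map_id : ∀ (X : Scheme.{u}) (p : Pic X), map (𝟙 X) p = p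
  map_comp : ∀ {X Y Z : Scheme.{u}} (f : X ⟶ Y) (g : Y ⟶ Z) (p : Pic Z),
    map (f ≫ g) p = map f (map g p)
  /-- the class of an invertible module -/
  cls : ∀ {X : Scheme.{u}} (M : X.Modules), M.IsInvertible → Pic X
  cls_surjective : ∀ {X : Scheme.{u}} (p : Pic X),
    ∃ (M : X.Modules) (hM : M.IsInvertible), cls M hM = p
  cls_eq_one_iff : ∀ {X : Scheme.{u}} (M : X.Modules) (hM : M.IsInvertible),
    cls M hM = 1 ↔ Nonempty (M ≅ SheafOfModules.unit X.ringCatSheaf)
  map_cls : ∀ {X Y : Scheme.{u}} (f : X ⟶ Y) (M : Y.Modules) (hM : M.IsInvertible),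
    map f (cls M hM) = cls ((Scheme.Modules.pullback f).obj M) (hM.pullback f)

attribute [instance] PicCalc.grp

namespace PicCalc

variable (PC : PicCalc.{v, u})

theorem map_congr {X Y : Scheme.{u}} {f g : X ⟶ Y} (h : f = g) (p : PC.Pic Y) :
    PC.map f p = PC.map g p := by rw [h]

/-- Pullback along an isomorphism is injective. -/
theorem eq_one_of_map_iso_eq_one {X Y : Scheme.{u}} (f : X ⟶ Y) [IsIso f] (p : PC.Pic Y)
    (h : PC.map f p = 1) : p = 1 := by
  have h1 : PC.map (inv f ≫ f) p = p := by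
    rw [IsIso.inv_hom_id]; exact PC.map_id Y p
  rw [PC.map_comp, h, map_one] at h1
  exact h1.symm

/-- The Picard group of the spectrum of a field is trivial. -/
theorem eq_one_of_field {K : Type u} [Field K] (p : PC.Pic (Spec (CommRingCat.of K))) :
    p = 1 := by
  obtain ⟨M, hM, rfl⟩ := PC.cls_surjective p
  obtain ⟨U, hxU, ⟨i⟩⟩ := hM.1 (default : Spec (CommRingCat.of K))
  have hU : U = ⊤ := by
    ext y
    have : y = default := Subsingleton.elim _ _
    simp only [this, TopologicalSpace.Opens.coe_top, Set.mem_univ, iff_true]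
    exact hxU
  subst hU
  have hiso : IsIso (⊤ : (Spec (CommRingCat.of K)).Opens).ι := by
    rw [← Scheme.topIso_hom]; infer_instance
  apply PC.eq_one_of_map_iso_eq_one (⊤ : (Spec (CommRingCat.of K)).Opens).ι
  rw [PC.map_cls, PC.cls_eq_one_iff]
  exact ⟨i⟩

end PicCalc

/-! ### The commutative group of `T`-valued points -/

section Points

variable {K : Type u} [Field K] {A : Scheme.{u}} {f : A ⟶ Spec (CommRingCat.of K)}
  (G : RelativeGroupLaw K f) (hc : G.IsCommutative)

/-- The commutative group of `T`-valued points of a commutative group law. -/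
@[reducible]
def tptCommGroup {T : Scheme.{u}} (t : T ⟶ Spec (CommRingCat.of K)) :
    CommGroup (SchemeHomOver t f) :=
  { G.pointGroup t with mul_comm := fun x y => hc t x y }

theorem tpt_mul_def {T : Scheme.{u}} (t : T ⟶ Spec (CommRingCat.of K))
    (x y : SchemeHomOver t f) :
    letI := tptCommGroup G hc t
    x * y = G.mul t x y := rfl

theorem tpt_one_def {T : Scheme.{u}} (t : T ⟶ Spec (CommRingCat.of K)) :
    letI := tptCommGroup G hc t
    (1 : SchemeHomOver t f) = G.one t := rfl

theorem tpt_inv_def {T : Scheme.{u}} (t : T ⟶ Spec (CommRingCat.of K))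
    (x : SchemeHomOver t f) :
    letI := tptCommGroup G hc t
    x⁻¹ = G.inv t x := rfl

theorem tpt_nsmul_eq_pow {T : Scheme.{u}} (t : T ⟶ Spec (CommRingCat.of K)) (N : ℕ)
    (x : SchemeHomOver t f) :
    letI := tptCommGroup G hc t
    G.nsmul t N x = x ^ N := by
  letI := tptCommGroup G hc t
  induction N with
  | zero => rw [pow_zero]; rfl
  | succ N ih => rw [pow_succ, ← ih]; rfl

/-- Base change of points as a group homomorphism. -/
def tptPullback {T T' : Scheme.{u}} (t : T ⟶ Spec (CommRingCat.of K))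
    (t' : T' ⟶ Spec (CommRingCat.of K)) (ψ : T' ⟶ T) (hψ : ψ ≫ t = t') :
    letI := tptCommGroup G hc t
    letI := tptCommGroup G hc t'
    SchemeHomOver t f →* SchemeHomOver t' f :=
  letI := tptCommGroup G hc t
  letI := tptCommGroup G hc t'
  { toFun := schemeHomOverComp ψ hψ
    map_one' := G.one_natural t t' ψ hψ
    map_mul' := fun x y => G.mul_natural t t' ψ hψ x y }

theorem schemeHomOverComp_id {T : Scheme.{u}} (t : T ⟶ Spec (CommRingCat.of K))
    (x : SchemeHomOver t f) : schemeHomOverComp (𝟙 T) (Category.id_comp t) x = x :=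
  Subtype.ext (Category.id_comp _)

theorem schemeHomOverComp_comp {T T' T'' : Scheme.{u}} {t : T ⟶ Spec (CommRingCat.of K)}
    {t' : T' ⟶ Spec (CommRingCat.of K)} {t'' : T'' ⟶ Spec (CommRingCat.of K)}
    (ψ : T' ⟶ T) (hψ : ψ ≫ t = t') (χ : T'' ⟶ T') (hχ : χ ≫ t' = t'')
    (x : SchemeHomOver t f) :
    schemeHomOverComp χ hχ (schemeHomOverComp ψ hψ x) =
      schemeHomOverComp (χ ≫ ψ) (by rw [Category.assoc, hψ, hχ]) x :=
  Subtype.ext (Category.assoc _ _ _).symm

end Points

/-! ### The functorial cube defect -/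

section Cube

variable (PC : PicCalc.{v, u}) {K : Type u} [Field K] {A : Scheme.{u}}
  {f : A ⟶ Spec (CommRingCat.of K)} (G : RelativeGroupLaw K f) (hc : G.IsCommutative)
  (ℓ : PC.Pic A)

/-- Evaluation of `ℓ` at a `T`-valued point: `x ↦ x^* ℓ`. -/
def ev {T : Scheme.{u}} (t : T ⟶ Spec (CommRingCat.of K)) (x : SchemeHomOver t f) : PC.Pic T :=
  PC.map x.1 ℓ

theorem map_ev {T T' : Scheme.{u}} (t : T ⟶ Spec (CommRingCat.of K))
    (t' : T' ⟶ Spec (CommRingCat.of K)) (ψ : T' ⟶ T) (hψ : ψ ≫ t = t')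
    (x : SchemeHomOver t f) :
    PC.map ψ (ev PC ℓ t x) = ev PC ℓ t' (schemeHomOverComp ψ hψ x) :=
  (PC.map_comp ψ x.1 ℓ).symm

/-- The cube defect of `ℓ` at three `T`-valued points. -/
def Th {T : Scheme.{u}} (t : T ⟶ Spec (CommRingCat.of K)) (x y z : SchemeHomOver t f) :
    PC.Pic T :=
  letI := tptCommGroup G hc t
  theta (ev PC ℓ t) x y z

/-- Naturality of the cube defect. -/
theorem map_Th {T T' : Scheme.{u}} (t : T ⟶ Spec (CommRingCat.of K))
    (t' : T' ⟶ Spec (CommRingCat.of K)) (ψ : T' ⟶ T) (hψ : ψ ≫ t = t')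
    (x y z : SchemeHomOver t f) :
    PC.map ψ (Th PC G hc ℓ t x y z) =
      Th PC G hc ℓ t' (schemeHomOverComp ψ hψ x) (schemeHomOverComp ψ hψ y)
        (schemeHomOverComp ψ hψ z) := by
  letI := tptCommGroup G hc t
  letI := tptCommGroup G hc t'
  unfold Th
  rw [← theta_comp_hom (ev PC ℓ t) (PC.map ψ) x y z]
  have h1 : (fun g => PC.map ψ (ev PC ℓ t g)) =
      fun g => ev PC ℓ t' (tptPullback G hc t t' ψ hψ g) := by
    funext g
    exact map_ev PC ℓ t t' ψ hψ g
  rw [h1, theta_hom_comp (ev PC ℓ t') (tptPullback G hc t t' ψ hψ) x y z]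
  rfl

theorem Th_one_left {T : Scheme.{u}} (t : T ⟶ Spec (CommRingCat.of K))
    (y z : SchemeHomOver t f) : Th PC G hc ℓ t (G.one t) y z = 1 := by
  letI := tptCommGroup G hc t
  exact theta_one_left (ev PC ℓ t) y z

theorem Th_one_mid {T : Scheme.{u}} (t : T ⟶ Spec (CommRingCat.of K))
    (x z : SchemeHomOver t f) : Th PC G hc ℓ t x (G.one t) z = 1 := by
  letI := tptCommGroup G hc t
  exact theta_one_mid (ev PC ℓ t) x z

theorem Th_one_right {T : Scheme.{u}} (t : T ⟶ Spec (CommRingCat.of K))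
    (x y : SchemeHomOver t f) : Th PC G hc ℓ t x y (G.one t) = 1 := by
  letI := tptCommGroup G hc t
  exact theta_one_right (ev PC ℓ t) x y

/-- The functorial "theorem of the square" predicate: the cube defect vanishes as soon as the
first argument is (a base change of) `x`. -/
def InS {T : Scheme.{u}} (t : T ⟶ Spec (CommRingCat.of K)) (x : SchemeHomOver t f) : Prop :=
  ∀ ⦃T' : Scheme.{u}⦄ (t' : T' ⟶ Spec (CommRingCat.of K)) (ψ : T' ⟶ T) (hψ : ψ ≫ t = t')
    (y z : SchemeHomOver t' f), Th PC G hc ℓ t' (schemeHomOverComp ψ hψ x) y z = 1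

variable {PC G hc ℓ}

theorem InS.spec {T : Scheme.{u}} {t : T ⟶ Spec (CommRingCat.of K)} {x : SchemeHomOver t f}
    (hx : InS PC G hc ℓ t x) (y z : SchemeHomOver t f) : Th PC G hc ℓ t x y z = 1 := by
  have := hx t (𝟙 T) (Category.id_comp t) y z
  rwa [schemeHomOverComp_id] at this

theorem InS.one {T : Scheme.{u}} (t : T ⟶ Spec (CommRingCat.of K)) :
    InS PC G hc ℓ t (G.one t) := by
  intro T' t' ψ hψ y z
  rw [G.one_natural t t' ψ hψ]
  exact Th_one_left PC G hc ℓ t' y z

theorem InS.mul {T : Scheme.{u}} {t : T ⟶ Spec (CommRingCat.of K)} {x x' : SchemeHomOver t f}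
    (hx : InS PC G hc ℓ t x) (hx' : InS PC G hc ℓ t x') : InS PC G hc ℓ t (G.mul t x x') := by
  intro T' t' ψ hψ y z
  rw [G.mul_natural t t' ψ hψ]
  letI := tptCommGroup G hc t'
  have h1 : schemeHomOverComp ψ hψ x ∈ cubeSubgroup (ev PC ℓ t') := fun y z => hx t' ψ hψ y z
  have h2 : schemeHomOverComp ψ hψ x' ∈ cubeSubgroup (ev PC ℓ t') := fun y z => hx' t' ψ hψ y z
  exact (cubeSubgroup (ev PC ℓ t')).mul_mem h1 h2 y z

theorem InS.inv {T : Scheme.{u}} {t : T ⟶ Spec (CommRingCat.of K)} {x : SchemeHomOver t f}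
    (hx : InS PC G hc ℓ t x) : InS PC G hc ℓ t (G.inv t x) := by
  intro T' t' ψ hψ y z
  letI := tptCommGroup G hc t
  letI := tptCommGroup G hc t'
  have h0 : schemeHomOverComp ψ hψ (G.inv t x) = (schemeHomOverComp ψ hψ x)⁻¹ :=
    map_inv (tptPullback G hc t t' ψ hψ) x
  rw [h0]
  have h1 : schemeHomOverComp ψ hψ x ∈ cubeSubgroup (ev PC ℓ t') := fun y z => hx t' ψ hψ y z
  exact (cubeSubgroup (ev PC ℓ t')).inv_mem h1 y z

theorem InS.comp {T T' : Scheme.{u}} {t : T ⟶ Spec (CommRingCat.of K)}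
    {t' : T' ⟶ Spec (CommRingCat.of K)} {x : SchemeHomOver t f} (hx : InS PC G hc ℓ t x)
    (ψ : T' ⟶ T) (hψ : ψ ≫ t = t') : InS PC G hc ℓ t' (schemeHomOverComp ψ hψ x) := by
  intro T'' t'' χ hχ y z
  rw [schemeHomOverComp_comp]
  exact hx t'' (χ ≫ ψ) _ y z

end Cube

end Fermat.Agent.AV.Cube82
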