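/-
Fermat/Agent/AV/Cube82/Curve.lean  (helper82, programme AV = S26/S27, bricks SQ + CUBE)

**Curve points satisfy the functorial theorem of the square.**

`A` proper over the algebraically closed field `K` with a commutative group law `G`,
`A ×_K A` integral; `X : CurveTo f 0` a pointed curve through the origin whose cut rigidified
Picard functor is representable (S25).  Then for every `T` and every `T`-valued point `c'` of the
curve, `φ ∘ c'` satisfies `InS`: the cube defect `Th (φ ∘ c') y z` vanishes for all `y z`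
(curve-cube theorem `CCube32.ccube_modules`, applied to the universal case `C × (A × A)`).

Consequently the sum map `σ = sumPt G l` of a list of such curves satisfies `InS`.
-/
import Mathlib
import Fermat.Agent.AV.Cube82.PicCalc
import Fermat.Agent.AV.CCube32.Cube
import Fermat.Agent.AV.Curv33.Iface

set_option autoImplicit false
set_option linter.style.haveILetI false

noncomputable section

universe v u

open CategoryTheory CategoryTheory.Limits AlgebraicGeometry AlgebraicGeometry.RelPicard
  NeronModelInfra GoodReductionJacobian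

namespace Fermat.Agent.AV.Cube82

open Fermat.Agent.AV.CCube32 Fermat.Agent.AV.Rigid81 Fermat.Agent.AV.Curv33

/-- The curve-cube theorem in `PicCalc` form. -/
theorem PicCalc.ccube (PC : PicCalc.{v, u}) {k : Type u} [Field k] [IsAlgClosed k]
    {C : Scheme.{u}} {c : C ⟶ Spec (CommRingCat.of k)}
    {ε : SchemeHomOver (𝟙 (Spec (CommRingCat.of k))) c} {D : RelativePic0Designation k c}
    {U V W : Scheme.{u}} (u : U ⟶ Spec (CommRingCat.of k)) (v : V ⟶ Spec (CommRingCat.of k))
    {p1 : W ⟶ U} {p2 : W ⟶ V} (hW : IsPullback p1 p2 u v)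
    (h : RepresentsRelSubPic c ε (algEquivZeroCut c ε) D)
    [IsSeparated D.toBase] [LocallyOfFiniteType D.toBase]
    [IsProper u] [LocallyOfFiniteType v] [IsIntegral W]
    (u₀ : Spec (CommRingCat.of k) ⟶ U) (hu₀ : u₀ ≫ u = 𝟙 _)
    (v₀ : Spec (CommRingCat.of k) ⟶ V) (hv₀ : v₀ ≫ v = 𝟙 _)
    (p : PC.Pic (pullback c (p1 ≫ u)))
    (hε : PC.map (rigSection c (p1 ≫ u) ε) p = 1)
    (hU : PC.map (baseChangeSnd c (axisL u v hW v₀ hv₀)) p = 1)
    (hV : PC.map (baseChangeSnd c (axisR u v hW u₀ hu₀)) p = 1) :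
    p = 1 := by
  obtain ⟨M, hM, rfl⟩ := PC.cls_surjective p
  rw [PC.map_cls, PC.cls_eq_one_iff] at hε hU hV
  rw [PC.cls_eq_one_iff]
  exact ccube_modules u v hW h u₀ hu₀ v₀ hv₀ M hM hε hU hV

section Curve

open Fermat.Agent.Jac.PoincareMem79

variable (PC : PicCalc.{v, u}) {K : Type u} [Field K] {A : Scheme.{u}}
  {f : A ⟶ Spec (CommRingCat.of K)} (G : RelativeGroupLaw K f) (hc : G.IsCommutative)
  (ℓ : PC.Pic A)

/-- The origin of `A`. -/
abbrev origin : Spec (CommRingCat.of K) ⟶ A := (G.one (𝟙 (Spec (CommRingCat.of K)))).1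

theorem origin_f : origin G ≫ f = 𝟙 _ := (G.one (𝟙 (Spec (CommRingCat.of K)))).2

/-- A point which factors through the origin is the neutral element. -/
theorem eq_one_of_factors {T : Scheme.{u}} (t : T ⟶ Spec (CommRingCat.of K))
    (x : SchemeHomOver t f) (hx : x.1 = t ≫ origin G) : x = G.one t := by
  rw [← G.one_natural (𝟙 _) t t (Category.comp_id t)]
  exact Subtype.ext hx

variable {G}

/-- The universal base `C × (A × A)`. -/
abbrev uBase (X : CurveTo f (G.one (𝟙 (Spec (CommRingCat.of K))))) : Scheme.{u} :=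
  pullback X.c (pullback.fst f f ≫ f)

/-- Its structure morphism. -/
abbrev uStr (X : CurveTo f (G.one (𝟙 (Spec (CommRingCat.of K))))) :
    uBase X ⟶ Spec (CommRingCat.of K) :=
  pullback.fst X.c (pullback.fst f f ≫ f) ≫ X.c

theorem uStr_eq (X : CurveTo f (G.one (𝟙 (Spec (CommRingCat.of K))))) :
    uStr X = pullback.snd X.c (pullback.fst f f ≫ f) ≫ pullback.fst f f ≫ f :=
  pullback.condition

/-- The universal point `φ ∘ pr_C`. -/
def uX (X : CurveTo f (G.one (𝟙 (Spec (CommRingCat.of K))))) : SchemeHomOver (uStr X) f :=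
  ⟨pullback.fst X.c (pullback.fst f f ≫ f) ≫ X.φ.1, by rw [Category.assoc, X.φ.2]⟩

/-- The universal point `pr₂`. -/
def uY (X : CurveTo f (G.one (𝟙 (Spec (CommRingCat.of K))))) : SchemeHomOver (uStr X) f :=
  ⟨pullback.snd X.c (pullback.fst f f ≫ f) ≫ pullback.fst f f, by
    rw [Category.assoc, uStr_eq]⟩

/-- The universal point `pr₃`. -/
def uZ (X : CurveTo f (G.one (𝟙 (Spec (CommRingCat.of K))))) : SchemeHomOver (uStr X) f :=
  ⟨pullback.snd X.c (pullback.fst f f ≫ f) ≫ pullback.snd f f, by
    have h : pullback.snd f f ≫ f = pullback.fst f f ≫ f := pullback.condition.symm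
    rw [Category.assoc, h, uStr_eq]⟩

variable (G) [IsAlgClosed K] [IsProper f] [IsIntegral (pullback f f)]

/-- **Universal case**: on `C × (A × A)` the cube defect of `(φ ∘ pr_C, pr₂, pr₃)` vanishes. -/
theorem Th_universal_curve (X : CurveTo f (G.one (𝟙 (Spec (CommRingCat.of K)))))
    {D : RelativePic0Designation K X.c}
    (h : RepresentsRelSubPic X.c X.ε (algEquivZeroCut X.c X.ε) D)
    [IsSeparated D.toBase] [LocallyOfFiniteType D.toBase] :
    Th PC G hc ℓ (uStr X) (uX X) (uY X) (uZ X) = 1 := by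
  have hW : IsPullback (pullback.fst f f) (pullback.snd f f) f f := IsPullback.of_hasPullback f f
  have : LocallyOfFiniteType f := inferInstance
  refine PC.ccube f f hW h (origin G) (origin_f G) (origin G) (origin_f G) _ ?_ ?_ ?_
  · -- the face `{ε} × W`
    rw [map_Th PC G hc ℓ _ _ (rigSection X.c (pullback.fst f f ≫ f) X.ε) rfl]
    have h1 : schemeHomOverComp (rigSection X.c (pullback.fst f f ≫ f) X.ε) rfl (uX X) =
        G.one _ := by
      apply eq_one_of_factors
      show rigSection X.c (pullback.fst f f ≫ f) X.ε ≫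
        pullback.fst X.c (pullback.fst f f ≫ f) ≫ X.φ.1 =
        (rigSection X.c (pullback.fst f f ≫ f) X.ε ≫
          pullback.fst X.c (pullback.fst f f ≫ f) ≫ X.c) ≫ origin G
      have e1 : rigSection X.c (pullback.fst f f ≫ f) X.ε ≫
          pullback.fst X.c (pullback.fst f f ≫ f) = (pullback.fst f f ≫ f) ≫ X.ε.1 := by
        unfold rigSection
        exact pullback.lift_fst _ _ _
      have e2 : X.ε.1 ≫ X.c = 𝟙 _ := X.ε.2
      rw [reassoc_of% e1, reassoc_of% e1, X.φ_ε, Category.assoc, Category.assoc,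
        e2, Category.id_comp]
    rw [h1]
    exact Th_one_left PC G hc ℓ _ _ _
  · -- the face `C × A × {0}`
    rw [map_Th PC G hc ℓ _ _ (baseChangeSnd X.c (axisL f f hW (origin G) (origin_f G))) rfl]
    have h1 : schemeHomOverComp (baseChangeSnd X.c (axisL f f hW (origin G) (origin_f G))) rfl
        (uZ X) = G.one _ := by
      apply eq_one_of_factors
      show baseChangeSnd X.c (axisL f f hW (origin G) (origin_f G)) ≫
        pullback.snd X.c (pullback.fst f f ≫ f) ≫ pullback.snd f f =
        (baseChangeSnd X.c (axisL f f hW (origin G) (origin_f G)) ≫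
          pullback.fst X.c (pullback.fst f f ≫ f) ≫ X.c) ≫ origin G
      have e1 : (axisL f f hW (origin G) (origin_f G)).1 ≫ pullback.snd f f = f ≫ origin G :=
        slice_snd f f hW (origin G) (origin_f G)
      rw [baseChangeSnd_snd_assoc, baseChangeSnd_fst_assoc, e1, ← Category.assoc,
        ← pullback.condition]
    rw [h1]
    exact Th_one_right PC G hc ℓ _ _ _
  · -- the face `C × {0} × A`
    rw [map_Th PC G hc ℓ _ _ (baseChangeSnd X.c (axisR f f hW (origin G) (origin_f G))) rfl]
    have h1 : schemeHomOverComp (baseChangeSnd X.c (axisR f f hW (origin G) (origin_f G))) rfl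
        (uY X) = G.one _ := by
      apply eq_one_of_factors
      show baseChangeSnd X.c (axisR f f hW (origin G) (origin_f G)) ≫
        pullback.snd X.c (pullback.fst f f ≫ f) ≫ pullback.fst f f =
        (baseChangeSnd X.c (axisR f f hW (origin G) (origin_f G)) ≫
          pullback.fst X.c (pullback.fst f f ≫ f) ≫ X.c) ≫ origin G
      have e1 : (axisR f f hW (origin G) (origin_f G)).1 ≫ pullback.fst f f = f ≫ origin G :=
        sliceR_fst f f hW (origin G) (origin_f G)
      rw [baseChangeSnd_snd_assoc, baseChangeSnd_fst_assoc, e1, ← Category.assoc,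
        ← pullback.condition]
    rw [h1]
    exact Th_one_mid PC G hc ℓ _ _ _

/-- **Curve points satisfy the functorial theorem of the square.** -/
theorem inS_curve (X : CurveTo f (G.one (𝟙 (Spec (CommRingCat.of K)))))
    {D : RelativePic0Designation K X.c}
    (h : RepresentsRelSubPic X.c X.ε (algEquivZeroCut X.c X.ε) D)
    [IsSeparated D.toBase] [LocallyOfFiniteType D.toBase]
    {T : Scheme.{u}} (t : T ⟶ Spec (CommRingCat.of K)) (c' : SchemeHomOver t X.c) :
    InS PC G hc ℓ t (schemeHomOverComp c'.1 c'.2 X.φ) := by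
  intro T' t' ψ hψ y z
  -- the classifying morphism `T' ⟶ C × (A × A)`
  have hyz : y.1 ≫ f = z.1 ≫ f := y.2.trans z.2.symm
  have hc' : (ψ ≫ c'.1) ≫ X.c = pullback.lift y.1 z.1 hyz ≫ pullback.fst f f ≫ f := by
    rw [pullback.lift_fst_assoc, y.2, Category.assoc, c'.2, hψ]
  let τ : T' ⟶ uBase X := pullback.lift (ψ ≫ c'.1) (pullback.lift y.1 z.1 hyz) hc'
  have hτ : τ ≫ uStr X = t' := by
    show pullback.lift _ _ _ ≫ pullback.fst X.c (pullback.fst f f ≫ f) ≫ X.c = t'
    rw [pullback.lift_fst_assoc, Category.assoc, c'.2, hψ]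
  have hx : schemeHomOverComp τ hτ (uX X) =
      schemeHomOverComp ψ hψ (schemeHomOverComp c'.1 c'.2 X.φ) := by
    apply Subtype.ext
    show pullback.lift _ _ _ ≫ pullback.fst X.c (pullback.fst f f ≫ f) ≫ X.φ.1 =
      ψ ≫ c'.1 ≫ X.φ.1
    rw [pullback.lift_fst_assoc, Category.assoc]
  have hy : schemeHomOverComp τ hτ (uY X) = y := by
    apply Subtype.ext
    show pullback.lift _ _ _ ≫ pullback.snd X.c (pullback.fst f f ≫ f) ≫ pullback.fst f f = y.1
    rw [pullback.lift_snd_assoc, pullback.lift_fst]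
  have hz : schemeHomOverComp τ hτ (uZ X) = z := by
    apply Subtype.ext
    show pullback.lift _ _ _ ≫ pullback.snd X.c (pullback.fst f f ≫ f) ≫ pullback.snd f f = z.1
    rw [pullback.lift_snd_assoc, pullback.lift_snd]
  have key := map_Th PC G hc ℓ (uStr X) t' τ hτ (uX X) (uY X) (uZ X)
  rw [Th_universal_curve PC G hc ℓ X h, map_one, hx, hy, hz] at key
  exact key.symm

/-- **The sum map of a list of curves satisfies the functorial theorem of the square.** -/
theorem inS_sumPt (l : List (CurveTo f (G.one (𝟙 (Spec (CommRingCat.of K))))))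
    (hrep : ∀ X ∈ l, ∃ (D : RelativePic0Designation K X.c)
      (_ : RepresentsRelSubPic X.c X.ε (algEquivZeroCut X.c X.ε) D),
      IsSeparated D.toBase ∧ LocallyOfFiniteType D.toBase) :
    InS PC G hc ℓ (prodHom l) (sumPt G l) := by
  induction l with
  | nil => exact InS.one (PC := PC) (hc := hc) (ℓ := ℓ) _
  | cons X l ih =>
    rw [sumPt_cons]
    apply InS.mul
    · obtain ⟨D, h, h1, h2⟩ := hrep X (List.mem_cons_self)
      exact inS_curve PC G hc ℓ X h (prodHom (X :: l)) ⟨prodFst X l, prodFst_c X l⟩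
    · exact InS.comp (PC := PC) (hc := hc) (ℓ := ℓ)
        (ih fun Y hY => hrep Y (List.mem_cons_of_mem _ hY)) _ _

end Curve

end Fermat.Agent.AV.Cube82
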