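/-
Fermat/Agent/AV/Cube82/Formula.lean  (helper82, programme AV = S26/S27, bricks SQ + CUBE)

**Output of bricks SQ + CUBE.**  Setting: `K` algebraically closed, `f : A ⟶ Spec K` proper with a
commutative group law `G`, `A ×_K A` integral, `l` a list of pointed curves through the origin with
representable Picard functors (S25), `σ = sumMap G l : ∏ l ⟶ A`, `PC` a Picard calculus,
`ℓ : Pic A`.

* `map_sumMap_Th` : `σ^* Θ_A(id, y, z) = 1` for all `A`-valued points `y z` of `A`;
* `map_sumMap_map_schemeNsmul` : for symmetric `ℓ`, `σ^*[n]^*ℓ = (σ^*ℓ)^(n²)`   (no `δ`);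
* `pow_map_schemeNsmul` : if moreover `σ^*M = 1 ⇒ M^δ = 1` on `A` (Lemma D, brick NORMD) then
  `([n]^*ℓ)^δ = ℓ^(δ n²)`;
* `translate_mul_translate_neg` (theorem of the square on closed points): for a `K`-point `a` in the
  image of `σ`, `t_a^*ℓ · t_{-a}^*ℓ = ℓ²`.
-/
import Mathlib
import Fermat.Agent.AV.Cube82.Curve

set_option autoImplicit false
set_option linter.style.haveILetI false

noncomputable section

universe v u

open CategoryTheory CategoryTheory.Limits AlgebraicGeometry AlgebraicGeometry.RelPicard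
  NeronModelInfra GoodReductionJacobian

namespace Fermat.Agent.AV.Cube82

open Fermat.Agent.AV.Curv33

variable (PC : PicCalc.{v, u}) {K : Type u} [Field K] {A : Scheme.{u}}
  {f : A ⟶ Spec (CommRingCat.of K)} (G : RelativeGroupLaw K f) (hc : G.IsCommutative)
  (ℓ : PC.Pic A)

/-- `ℓ` evaluated at the neutral element is trivial. -/
theorem ev_one {T : Scheme.{u}} (t : T ⟶ Spec (CommRingCat.of K)) :
    ev PC ℓ t (G.one t) = 1 := by
  have h : (G.one t).1 = t ≫ origin G :=
    congrArg Subtype.val (G.one_natural (𝟙 _) t t (Category.comp_id t)).symm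
  unfold ev
  rw [h, PC.map_comp, PC.eq_one_of_field (PC.map (origin G) ℓ), map_one]

/-- `N • x` is `x` followed by `[N]`. -/
theorem nsmul_coe' {T : Scheme.{u}} (t : T ⟶ Spec (CommRingCat.of K)) (N : ℕ)
    (x : SchemeHomOver t f) : (G.nsmul t N x).1 = x.1 ≫ G.schemeNsmul N := by
  have h := G.nsmul_natural f t x.1 x.2 N RelativeGroupLaw.idPoint
  have hx : schemeHomOverComp x.1 x.2 (RelativeGroupLaw.idPoint (f := f)) = x :=
    Subtype.ext (Category.comp_id _)
  rw [hx] at h
  rw [← h]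
  rfl

include hc

/-- Inverse of points and the scheme morphism `[-1]`. -/
theorem inv_coe {T : Scheme.{u}} (t : T ⟶ Spec (CommRingCat.of K)) (x : SchemeHomOver t f) :
    (G.inv t x).1 = x.1 ≫ (G.inv f RelativeGroupLaw.idPoint).1 := by
  letI := tptCommGroup G hc f
  letI := tptCommGroup G hc t
  have h := map_inv (tptPullback G hc f t x.1 x.2) (RelativeGroupLaw.idPoint (f := f))
  have hx : schemeHomOverComp x.1 x.2 (RelativeGroupLaw.idPoint (f := f)) = x :=
    Subtype.ext (Category.comp_id _)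
  have h' : schemeHomOverComp x.1 x.2 (G.inv f RelativeGroupLaw.idPoint) =
      G.inv t (schemeHomOverComp x.1 x.2 RelativeGroupLaw.idPoint) := h
  rw [hx] at h'
  exact (congrArg Subtype.val h').symm

/-- Symmetry of `ℓ` propagates to all points. -/
theorem ev_inv (hsym : PC.map (G.inv f RelativeGroupLaw.idPoint).1 ℓ = ℓ) {T : Scheme.{u}}
    (t : T ⟶ Spec (CommRingCat.of K)) (x : SchemeHomOver t f) :
    ev PC ℓ t (G.inv t x) = ev PC ℓ t x := by
  unfold ev
  rw [inv_coe G hc t x, PC.map_comp, hsym]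

/-- **Quadraticity at a point satisfying the theorem of the square.** -/
theorem ev_nsmul_of_inS (hsym : PC.map (G.inv f RelativeGroupLaw.idPoint).1 ℓ = ℓ)
    {T : Scheme.{u}} (t : T ⟶ Spec (CommRingCat.of K)) (x : SchemeHomOver t f)
    (hx : InS PC G hc ℓ t x) (n : ℕ) :
    ev PC ℓ t (G.nsmul t n x) = ev PC ℓ t x ^ (n ^ 2) := by
  letI := tptCommGroup G hc t
  rw [tpt_nsmul_eq_pow G hc t n x]
  apply map_pow_eq_pow_sq (ev PC ℓ t) x
  · exact ev_one PC G ℓ t
  · exact ev_inv PC G hc ℓ hsym t x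
  · intro m _
    exact hx.spec _ _

section Main

variable [IsAlgClosed K] [IsProper f] [IsIntegral (pullback f f)]
  (l : List (CurveTo f (G.one (𝟙 (Spec (CommRingCat.of K))))))
  (hrep : ∀ X ∈ l, ∃ (D : RelativePic0Designation K X.c)
      (_ : RepresentsRelSubPic X.c X.ε (algEquivZeroCut X.c X.ε) D),
      IsSeparated D.toBase ∧ LocallyOfFiniteType D.toBase)

include hrep

/-- The pullback of the cube defect `Θ_A(id, y, z)` along the sum map is trivial. -/
theorem map_sumMap_Th (y z : SchemeHomOver f f) :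
    PC.map (sumMap G l) (Th PC G hc ℓ f RelativeGroupLaw.idPoint y z) = 1 := by
  rw [map_Th PC G hc ℓ f (prodHom l) (sumMap G l) (sumMap_f G l)]
  have hx : schemeHomOverComp (sumMap G l) (sumMap_f G l) (RelativeGroupLaw.idPoint (f := f)) =
      sumPt G l := Subtype.ext (Category.comp_id _)
  rw [hx]
  exact (inS_sumPt PC G hc ℓ l hrep).spec _ _

/-- For symmetric `ℓ`: `σ^* [n]^* ℓ = (σ^* ℓ) ^ (n²)` on the product of curves. -/
theorem map_sumMap_map_schemeNsmul
    (hsym : PC.map (G.inv f RelativeGroupLaw.idPoint).1 ℓ = ℓ) (n : ℕ) :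
    PC.map (sumMap G l) (PC.map (G.schemeNsmul n) ℓ) = PC.map (sumMap G l) ℓ ^ (n ^ 2) := by
  have h := ev_nsmul_of_inS PC G hc ℓ hsym (prodHom l) (sumPt G l)
    (inS_sumPt PC G hc ℓ l hrep) n
  unfold ev at h
  rw [nsmul_coe', PC.map_comp] at h
  exact h

/-- **`[n]^* ℓ` up to `δ`-torsion.**  If classes on `A` killed by `σ^*` are `δ`-torsion (Lemma D),
then `([n]^* ℓ) ^ δ = ℓ ^ (δ n²)` for symmetric `ℓ`. -/
theorem pow_map_schemeNsmul (δ : ℕ)
    (hnorm : ∀ M : PC.Pic A, PC.map (sumMap G l) M = 1 → M ^ δ = 1)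
    (hsym : PC.map (G.inv f RelativeGroupLaw.idPoint).1 ℓ = ℓ) (n : ℕ) :
    PC.map (G.schemeNsmul n) ℓ ^ δ = ℓ ^ (δ * n ^ 2) := by
  letI := tptCommGroup G hc f
  have key := map_pow_eq_pow_sq (fun x : SchemeHomOver f f => ev PC ℓ f x ^ δ)
    (RelativeGroupLaw.idPoint (f := f)) ?_ ?_ ?_ n
  · have h1 : (RelativeGroupLaw.idPoint (f := f)) ^ n = G.nsmul f n RelativeGroupLaw.idPoint :=
      (tpt_nsmul_eq_pow G hc f n _).symm
    simp only [h1] at key
    unfold ev at key
    have h2 : (G.nsmul f n RelativeGroupLaw.idPoint).1 = G.schemeNsmul n := rfl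
    have h3 : (RelativeGroupLaw.idPoint (f := f)).1 = 𝟙 A := rfl
    rw [h2, h3, PC.map_id, ← pow_mul] at key
    exact key
  · show ev PC ℓ f (G.one f) ^ δ = 1
    rw [ev_one, one_pow]
  · show ev PC ℓ f (G.inv f RelativeGroupLaw.idPoint) ^ δ = ev PC ℓ f RelativeGroupLaw.idPoint ^ δ
    rw [ev_inv PC G hc ℓ hsym]
  · intro m _
    rw [theta_pow]
    exact hnorm _ (map_sumMap_Th PC G hc ℓ l hrep _ _)

end Main

end Fermat.Agent.AV.Cube82
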