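/-
Fermat/Agent/AV/Cube82/Square.lean  (helper82, programme AV = S26/S27, brick SQ)

**Theorem of the square on closed points.**  For `K`-points `a b` of `A` such that `a` satisfies the
functorial square predicate `InS` (e.g. `a` in the image of the sum map of a list of curves):

  `t_{a+b}^* ℓ · ℓ = t_a^* ℓ · t_b^* ℓ`,     in particular   `t_a^* ℓ · t_{-a}^* ℓ = ℓ²`.

Here `t_a = translate G a : A ⟶ A` is `x ↦ a + x`.
-/
import Mathlib
import Fermat.Agent.AV.Cube82.Formula

set_option autoImplicit false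
set_option linter.style.haveILetI false

noncomputable section

universe v u

open CategoryTheory CategoryTheory.Limits AlgebraicGeometry AlgebraicGeometry.RelPicard
  NeronModelInfra GoodReductionJacobian

namespace Fermat.Agent.AV.Cube82

open Fermat.Agent.AV.Curv33

variable (PC : PicCalc.{v, u}) {K : Type u} [Field K] {A : Scheme.{u}}
  {f : A ⟶ Spec (CommRingCat.of K)} (G : RelativeGroupLaw K f) (hc : G.IsCommutative)
  (ℓ : PC.Pic A)

/-- The constant `T`-valued point attached to a `K`-point. -/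
def constPt {T : Scheme.{u}} (t : T ⟶ Spec (CommRingCat.of K))
    (a : SchemeHomOver (𝟙 (Spec (CommRingCat.of K))) f) : SchemeHomOver t f :=
  schemeHomOverComp t (Category.comp_id t) a

/-- Translation by a `K`-point, `x ↦ a + x`. -/
def translate (a : SchemeHomOver (𝟙 (Spec (CommRingCat.of K))) f) : A ⟶ A :=
  (G.mul f (constPt f a) RelativeGroupLaw.idPoint).1

theorem ev_constPt {T : Scheme.{u}} (t : T ⟶ Spec (CommRingCat.of K))
    (a : SchemeHomOver (𝟙 (Spec (CommRingCat.of K))) f) : ev PC ℓ t (constPt t a) = 1 := by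
  unfold ev constPt
  rw [schemeHomOverComp_coe, PC.map_comp, PC.eq_one_of_field (PC.map a.1 ℓ), map_one]

theorem constPt_mul {T : Scheme.{u}} (t : T ⟶ Spec (CommRingCat.of K))
    (a b : SchemeHomOver (𝟙 (Spec (CommRingCat.of K))) f) :
    constPt t (G.mul (𝟙 _) a b) = G.mul t (constPt t a) (constPt t b) :=
  G.mul_natural _ _ _ _ _ _

include hc

/-- **Theorem of the square** for `K`-points `a b`, `a` satisfying `InS`. -/
theorem theorem_of_square (a b : SchemeHomOver (𝟙 (Spec (CommRingCat.of K))) f)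
    (ha : InS PC G hc ℓ (𝟙 _) a) :
    PC.map (translate G (G.mul (𝟙 _) a b)) ℓ * ℓ =
      PC.map (translate G a) ℓ * PC.map (translate G b) ℓ := by
  letI := tptCommGroup G hc f
  have h : Th PC G hc ℓ f (constPt f a) (constPt f b) RelativeGroupLaw.idPoint = 1 :=
    (ha.comp f (Category.comp_id f)).spec _ _
  unfold Th theta at h
  have e1 : ev PC ℓ f (constPt f a * constPt f b) = 1 := by
    have : constPt f a * constPt f b = constPt f (G.mul (𝟙 _) a b) := (constPt_mul G f a b).symm
    rw [this, ev_constPt]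
  have e2 : ev PC ℓ f (1 : SchemeHomOver f f) = 1 := ev_one PC G ℓ f
  have e3 : ev PC ℓ f (RelativeGroupLaw.idPoint (f := f)) = ℓ := PC.map_id A ℓ
  have e4 : ev PC ℓ f (constPt f a * constPt f b * RelativeGroupLaw.idPoint) =
      PC.map (translate G (G.mul (𝟙 _) a b)) ℓ := by
    have : constPt f a * constPt f b = constPt f (G.mul (𝟙 _) a b) := (constPt_mul G f a b).symm
    rw [this]; rfl
  have e5 : ev PC ℓ f (constPt f a * RelativeGroupLaw.idPoint) = PC.map (translate G a) ℓ := rfl
  have e6 : ev PC ℓ f (constPt f b * RelativeGroupLaw.idPoint) = PC.map (translate G b) ℓ := rfl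
  rw [e1, e2, e3, e4, e5, e6, ev_constPt, ev_constPt] at h
  simp only [inv_one, mul_one] at h
  -- h : t_{ab}^*ℓ * (t_a^*ℓ)⁻¹ * (t_b^*ℓ)⁻¹ * ℓ = 1
  exact cg_id6 _ _ _ _ h

omit hc in
theorem translate_one : translate G (G.one (𝟙 _)) = 𝟙 A := by
  unfold translate
  have h : constPt f (G.one (𝟙 (Spec (CommRingCat.of K)))) = G.one f := G.one_natural _ _ _ _
  rw [h, G.one_mul]

/-- `t_a^* ℓ · t_{-a}^* ℓ = ℓ²` for a `K`-point `a` satisfying `InS`. -/
theorem translate_mul_translate_inv (a : SchemeHomOver (𝟙 (Spec (CommRingCat.of K))) f)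
    (ha : InS PC G hc ℓ (𝟙 _) a) :
    PC.map (translate G a) ℓ * PC.map (translate G (G.inv (𝟙 _) a)) ℓ = ℓ ^ 2 := by
  have h := theorem_of_square PC G hc ℓ a (G.inv (𝟙 _) a) ha
  rw [G.mul_inv_cancel, translate_one, PC.map_id] at h
  rw [← h, pow_two]

section Curves

variable [IsAlgClosed K] [IsProper f] [IsIntegral (pullback f f)]
  (l : List (CurveTo f (G.one (𝟙 (Spec (CommRingCat.of K))))))
  (hrep : ∀ X ∈ l, ∃ (D : RelativePic0Designation K X.c)
      (_ : RepresentsRelSubPic X.c X.ε (algEquivZeroCut X.c X.ε) D),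
      IsSeparated D.toBase ∧ LocallyOfFiniteType D.toBase)

include hrep

/-- `K`-points in the image of the sum map satisfy the functorial theorem of the square. -/
theorem inS_sumPt_point (w : SchemeHomOver (𝟙 (Spec (CommRingCat.of K))) (prodHom l)) :
    InS PC G hc ℓ (𝟙 _) (schemeHomOverComp w.1 w.2 (sumPt G l)) :=
  (inS_sumPt PC G hc ℓ l hrep).comp w.1 w.2

end Curves

end Fermat.Agent.AV.Cube82
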